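import Mathlib.Algebra.Order.BigOperators.Group.Finset
import Mathlib.Algebra.Order.Group.Basic
import Mathlib.Algebra.BigOperators.Fin
import Mathlib.Tactic.Abel
import Mathlib.Tactic.Module

/-!
# Elimination of a variable in groups like the integers

In an ordered abelian group with a least positive element `1` and division with remainder by every
positive integer, a boolean combination of linear inequalities and congruences has a solution in
the last variable if and only if one of finitely many sample points is one. The sample points lie at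
bounded distance from the thresholds of the inequalities, or are small.
-/

set_option autoImplicit false

namespace FA.Presburger

/-- An ordered abelian group with least positive element `1` and division with remainder. -/
class IsZGroup (G : Type*) [AddCommGroup G] [LinearOrder G] [One G] : Prop where
  one_pos : (0 : G) < 1
  one_le : ∀ x : G, 0 < x → 1 ≤ x
  exists_div : ∀ k : ℕ, 0 < k → ∀ x : G, ∃ y : G, ∃ r : ℕ, r < k ∧ x = (k : ℤ) • y + (r : ℤ) • 1

/-- A linear form with an integer constant. -/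
@[ext]
structure LinForm (n : ℕ) where
  coef : Fin n → ℤ
  cst : ℤ

namespace LinForm

variable {n : ℕ} {G : Type*} [AddCommGroup G] [One G]

/-- The value of a linear form. -/
def eval (f : LinForm n) (x : Fin n → G) : G :=
  (∑ i, f.coef i • x i) + f.cst • 1

instance instAdd : Add (LinForm n) := ⟨fun f g => ⟨f.coef + g.coef, f.cst + g.cst⟩⟩

instance instSub : Sub (LinForm n) := ⟨fun f g => ⟨f.coef - g.coef, f.cst - g.cst⟩⟩

instance instSMul : SMul ℤ (LinForm n) := ⟨fun c f => ⟨c • f.coef, c * f.cst⟩⟩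

/-- A constant form. -/
def const (c : ℤ) : LinForm n := ⟨0, c⟩

/-- A variable. -/
def coord (i : Fin n) : LinForm n := ⟨Pi.single i 1, 0⟩

/-- The form without its last variable. -/
def init (f : LinForm (n + 1)) : LinForm n := ⟨f.coef ∘ Fin.castSucc, f.cst⟩

/-- The coefficient of the last variable. -/
def last (f : LinForm (n + 1)) : ℤ := f.coef (Fin.last n)

@[simp] theorem eval_add (f g : LinForm n) (x : Fin n → G) :
    (f + g).eval x = f.eval x + g.eval x := by
  simp only [eval, show (f + g).coef = f.coef + g.coef from rfl,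
    show (f + g).cst = f.cst + g.cst from rfl, Pi.add_apply, add_smul, Finset.sum_add_distrib]
  abel

@[simp] theorem eval_sub (f g : LinForm n) (x : Fin n → G) :
    (f - g).eval x = f.eval x - g.eval x := by
  simp only [eval, show (f - g).coef = f.coef - g.coef from rfl,
    show (f - g).cst = f.cst - g.cst from rfl, Pi.sub_apply, sub_smul, Finset.sum_sub_distrib]
  abel

@[simp] theorem eval_smul (c : ℤ) (f : LinForm n) (x : Fin n → G) :
    (c • f).eval x = c • f.eval x := by
  simp [eval, show (c • f).coef = c • f.coef from rfl, show (c • f).cst = c * f.cst from rfl,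
    Finset.smul_sum, mul_smul]

@[simp] theorem eval_const (c : ℤ) (x : Fin n → G) : (const c).eval x = c • 1 := by
  simp [eval, const]

@[simp] theorem eval_coord (i : Fin n) (x : Fin n → G) : (coord i).eval x = x i := by
  simp [eval, coord, Pi.single_apply, ite_smul]

theorem eval_snoc (f : LinForm (n + 1)) (x : Fin n → G) (y : G) :
    f.eval (Fin.snoc x y) = f.init.eval x + f.last • y := by
  simp [eval, init, last, Fin.sum_univ_castSucc]
  abel

end LinForm

/-- An inequality `0 ≤ f` or a congruence `f ≡ 0` modulo `d + 1`. -/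
inductive Atom (n : ℕ) where
  | nonneg (f : LinForm n)
  | dvd (d : ℕ) (f : LinForm n)

/-- A boolean combination of atoms. -/
inductive QF (n : ℕ) where
  | falsum
  | atom (a : Atom n)
  | imp (p q : QF n)

variable {n : ℕ}

namespace Atom

/-- The truth of an atom. -/
def Holds {G : Type*} [AddCommGroup G] [LE G] [One G] : Atom n → (Fin n → G) → Prop
  | nonneg f, x => 0 ≤ f.eval x
  | dvd d f, x => ∃ y : G, f.eval x = ((d + 1 : ℕ) : ℤ) • y

/-- The modulus of an atom. -/
def modulus : Atom n → ℕ
  | nonneg _ => 1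
  | dvd d _ => d + 1

/-- The substitution of `u / a` for the last variable. -/
def subst (a : ℤ) (u : LinForm n) : Atom (n + 1) → Atom n
  | nonneg f => nonneg ((f.last * a.sign) • u + (a.natAbs : ℤ) • f.init)
  | dvd d f => dvd (a.natAbs * (d + 1) - 1) ((f.last * a.sign) • u + (a.natAbs : ℤ) • f.init)

/-- The sample points given by a threshold, as a coefficient and a form. -/
def samples (D : ℕ) : Atom (n + 1) → List (ℤ × LinForm n)
  | nonneg f =>
    if f.last = 0 then [] else
      (List.range (2 * (f.last.natAbs * (D + 1)) + 1)).map fun j : ℕ =>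
        (f.last, LinForm.const ((j : ℤ) - (f.last.natAbs * (D + 1) : ℕ)) - f.init)
  | dvd _ _ => []

end Atom

namespace QF

/-- The truth of a boolean combination. -/
def Holds {G : Type*} [AddCommGroup G] [LE G] [One G] : QF n → (Fin n → G) → Prop
  | falsum, _ => False
  | atom a, x => a.Holds x
  | imp p q, x => p.Holds x → q.Holds x

/-- The atoms. -/
def atoms : QF n → List (Atom n)
  | falsum => []
  | atom a => [a]
  | imp p q => p.atoms ++ q.atoms

/-- The negation. -/
def not (p : QF n) : QF n := p.imp falsum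

/-- The conjunction. -/
def and (p q : QF n) : QF n := (p.imp q.not).not

/-- The disjunction of a list. -/
def any : List (QF n) → QF n
  | [] => falsum
  | p :: l => p.not.imp (any l)

/-- The substitution of `u / a` for the last variable. -/
def subst (a : ℤ) (u : LinForm n) : QF (n + 1) → QF n
  | falsum => falsum
  | atom b => atom (b.subst a u)
  | imp p q => (p.subst a u).imp (q.subst a u)

/-- The common period of the congruences. -/
def period (p : QF n) : ℕ := (p.atoms.map Atom.modulus).prod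

/-- The sample points. -/
def samples (p : QF (n + 1)) : List (ℤ × LinForm n) :=
  (List.range p.period).map (fun r : ℕ => (1, LinForm.const (r : ℤ))) ++
    p.atoms.flatMap (Atom.samples p.period)

/-- The elimination of the last variable. -/
def elim (p : QF (n + 1)) : QF n :=
  any (p.samples.map fun c => (atom (.dvd (c.1.natAbs - 1) c.2)).and (p.subst c.1 c.2))

variable {G : Type*} [AddCommGroup G] [LE G] [One G]

@[simp] theorem holds_not (p : QF n) (x : Fin n → G) : p.not.Holds x ↔ ¬p.Holds x := Iff.rfl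

@[simp] theorem holds_and (p q : QF n) (x : Fin n → G) :
    (p.and q).Holds x ↔ p.Holds x ∧ q.Holds x := by
  simp [and, not, Holds]

@[simp] theorem holds_any (x : Fin n → G) : ∀ l : List (QF n), (any l).Holds x ↔ ∃ p ∈ l, p.Holds x
  | [] => by simp [any, Holds]
  | p :: l => by
    simp only [any, Holds, holds_not, holds_any x l, List.exists_mem_cons_iff]
    tauto

theorem holds_congr {x y : Fin n → G} :
    ∀ {p : QF n}, (∀ a ∈ p.atoms, a.Holds x ↔ a.Holds y) → (p.Holds x ↔ p.Holds y)
  | falsum, _ => Iff.rfl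
  | atom a, h => h a (List.mem_cons_self ..)
  | imp _ _, h => imp_congr (holds_congr fun a ha => h a (List.mem_append_left _ ha))
      (holds_congr fun a ha => h a (List.mem_append_right _ ha))

end QF

section Group

variable {G : Type*} [AddCommGroup G] [LinearOrder G] [IsOrderedAddMonoid G] [One G] [IsZGroup G]

theorem intCast_nonneg_iff (a : ℤ) : 0 ≤ a • (1 : G) ↔ 0 ≤ a := by
  refine ⟨fun h => le_of_not_gt fun ha => ?_, fun h => zsmul_nonneg IsZGroup.one_pos.le h⟩
  have h1 : 0 < (-a) • (1 : G) := zsmul_pos IsZGroup.one_pos (by omega)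
  rw [neg_smul, Left.neg_pos_iff] at h1
  exact h1.not_ge h

theorem add_one_le_of_lt {x y : G} (h : x < y) : x + 1 ≤ y := by
  have h1 := IsZGroup.one_le (y - x) (sub_pos.2 h)
  rwa [le_sub_iff_add_le, add_comm] at h1

/-- A multiple is at most a small number only if the factor is at most zero. -/
theorem nonpos_of_smul_lt {k : ℤ} (hk : 0 < k) {y : G} {r : ℤ} (hr : r < k)
    (h : k • y ≤ r • (1 : G)) : y ≤ 0 := by
  refine le_of_not_gt fun hy => ?_
  have h1 : 0 ≤ k • (y - 1) := zsmul_nonneg (sub_nonneg.2 (IsZGroup.one_le y hy)) hk.le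
  have h2 : 0 ≤ (r - k) • (1 : G) := by
    refine h1.trans ?_
    rw [sub_smul, smul_sub]
    exact sub_le_sub_right h _
  have := (intCast_nonneg_iff _).1 h2
  omega

theorem intCast_dvd_iff (d : ℕ) (a : ℤ) :
    (∃ y : G, a • (1 : G) = ((d + 1 : ℕ) : ℤ) • y) ↔ ((d + 1 : ℕ) : ℤ) ∣ a := by
  set k : ℤ := ((d + 1 : ℕ) : ℤ) with hk
  refine ⟨fun ⟨y, h⟩ => ?_, fun ⟨q, hq⟩ => ⟨q • 1, by rw [hq, mul_smul]⟩⟩
  have hk0 : 0 < k := by omega
  have hr := Int.emod_lt_of_pos a hk0
  have hr0 := Int.emod_nonneg a hk0.ne'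
  have e : k • (y - (a / k) • 1) = (a % k) • (1 : G) := by
    rw [smul_sub, ← h, smul_smul, ← sub_smul, Int.emod_def]
  have hz := nonpos_of_smul_lt hk0 hr e.le
  have h1 : k • (y - (a / k) • 1) ≤ 0 :=
    (zsmul_le_zsmul_right hk0.le hz).trans_eq (smul_zero _)
  rw [e] at h1
  have h2 : 0 ≤ (-(a % k)) • (1 : G) := by rwa [neg_smul, Left.nonneg_neg_iff]
  have := (intCast_nonneg_iff _).1 h2
  exact Int.dvd_of_emod_eq_zero (by omega)

theorem exists_floor {a : ℤ} (ha : 0 < a) (t : G) :
    ∃ β : G, ∃ k : ℤ, 0 ≤ k ∧ k < a ∧ a • β + t = k • 1 ∧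
      ∀ x : G, 0 ≤ a • x + t ↔ β ≤ x := by
  obtain ⟨y, r, hr, e⟩ := IsZGroup.exists_div a.toNat (by omega) ((a - 1) • (1 : G) - t)
  rw [Int.toNat_of_nonneg ha.le] at e
  have e1 : a • y + t = (a - 1 - r) • (1 : G) := by
    have : t = (a - 1) • (1 : G) - (a • y + (r : ℤ) • 1) := by rw [← e]; abel
    rw [this]
    module
  refine ⟨y, a - 1 - r, by omega, by omega, e1, fun x => ⟨fun h => ?_, fun h => ?_⟩⟩
  · refine le_of_not_gt fun hx => ?_
    have h1 : a • (x + 1) ≤ a • y := zsmul_le_zsmul_right ha.le (add_one_le_of_lt hx)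
    have h2 : 0 ≤ (a - 1 - r - a) • (1 : G) := by
      have : a • x + t ≤ (a - 1 - r) • (1 : G) - a • 1 := by
        rw [← e1, le_sub_iff_add_le]
        calc a • x + t + a • 1 = a • (x + 1) + t := by module
          _ ≤ a • y + t := by gcongr
      rw [← sub_smul] at this
      exact h.trans this
    have := (intCast_nonneg_iff _).1 h2
    omega
  · calc (0 : G) ≤ (a - 1 - r) • (1 : G) := (intCast_nonneg_iff _).2 (by omega)
      _ = a • y + t := e1.symm
      _ ≤ a • x + t := by gcongr

/-- An inequality changes at one threshold, where its form is small. -/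
theorem exists_threshold {a : ℤ} (ha : a ≠ 0) (t : G) :
    ∃ β : G, ∃ k : ℤ, |k| ≤ |a| ∧ a • β + t = k • 1 ∧
      ∀ x x' : G, (β ≤ x ↔ β ≤ x') → (0 ≤ a • x + t ↔ 0 ≤ a • x' + t) := by
  rcases lt_or_gt_of_ne ha with ha | ha
  · obtain ⟨β, k, hk0, hk, e, h⟩ := exists_floor (a := -a) (by omega) (-t - 1 : G)
    refine ⟨β, -k - 1, by rw [abs_of_neg ha, abs_le]; omega, ?_, fun x x' hx => ?_⟩
    · rw [show a • β + t = -((-a) • β + (-t - 1)) - 1 by module, e]
      module
    · have key : ∀ z : G, 0 ≤ a • z + t ↔ ¬β ≤ z := fun z => by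
        rw [← h z, not_le, show (-a) • z + (-t - 1) = -(a • z + t) - 1 by module]
        refine ⟨fun hz => ?_, fun hz => ?_⟩
        · exact (sub_neg.2 ((neg_nonpos.2 hz).trans_lt IsZGroup.one_pos))
        · have := add_one_le_of_lt hz
          rwa [sub_add_cancel, neg_nonpos] at this
      simp only [key, hx]
  · obtain ⟨β, k, hk0, hk, e, h⟩ := exists_floor ha t
    exact ⟨β, k, by rw [abs_of_nonneg hk0, abs_of_pos ha]; omega, e,
      fun x x' hx => by rw [h, h, hx]⟩

omit [LinearOrder G] [IsOrderedAddMonoid G] [One G] [IsZGroup G] in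
theorem smul_natAbs_eq (a : ℤ) (z : G) : (a.natAbs : ℤ) • z = a.sign • (a • z) := by
  rw [smul_smul, Int.sign_mul_self_eq_natAbs]

omit [LinearOrder G] [IsOrderedAddMonoid G] [IsZGroup G] in
theorem eval_subst {a : ℤ} {u : LinForm n} {x : Fin n → G} {y : G} (hy : a • y = u.eval x)
    (f : LinForm (n + 1)) :
    ((f.last * a.sign) • u + (a.natAbs : ℤ) • f.init).eval x =
      (a.natAbs : ℤ) • f.eval (Fin.snoc x y) := by
  rw [LinForm.eval_add, LinForm.eval_smul, LinForm.eval_smul, LinForm.eval_snoc, ← hy, smul_add,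
    smul_smul, smul_smul, ← Int.sign_mul_self_eq_natAbs, add_comm]
  congr 2
  ring

omit [IsZGroup G] in
theorem Atom.holds_subst {a : ℤ} (ha : a ≠ 0) {u : LinForm n} {x : Fin n → G} {y : G}
    (hy : a • y = u.eval x) (b : Atom (n + 1)) :
    (b.subst a u).Holds x ↔ b.Holds (Fin.snoc x y) := by
  have hA : (0 : ℤ) < a.natAbs := by omega
  cases b with
  | nonneg f =>
    simp only [Atom.subst, Atom.Holds, eval_subst hy]
    refine ⟨fun h => le_of_not_gt fun hf => ?_, fun h => zsmul_nonneg h hA.le⟩
    exact (zsmul_lt_zsmul_right hA hf |>.trans_eq (smul_zero _)).not_ge h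
  | dvd d f =>
    simp only [Atom.subst, Atom.Holds, eval_subst hy]
    have hm : a.natAbs * (d + 1) - 1 + 1 = a.natAbs * (d + 1) := by
      have : 0 < a.natAbs * (d + 1) := Nat.mul_pos (by omega) d.succ_pos
      omega
    simp only [hm, Nat.cast_mul, mul_smul]
    exact exists_congr fun z => (zsmul_right_injective hA.ne').eq_iff

omit [IsZGroup G] in
theorem QF.holds_subst {a : ℤ} (ha : a ≠ 0) {u : LinForm n} {x : Fin n → G} {y : G}
    (hy : a • y = u.eval x) :
    ∀ p : QF (n + 1), (p.subst a u).Holds x ↔ p.Holds (Fin.snoc x y)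
  | .falsum => Iff.rfl
  | .atom b => Atom.holds_subst ha hy b
  | .imp p q => imp_congr (QF.holds_subst ha hy p) (QF.holds_subst ha hy q)

theorem Atom.samples_ne_zero {D : ℕ} {b : Atom (n + 1)} {c : ℤ × LinForm n}
    (hc : c ∈ b.samples D) : c.1 ≠ 0 := by
  cases b with
  | nonneg f =>
    simp only [Atom.samples] at hc
    split at hc
    · simp at hc
    · obtain ⟨j, -, rfl⟩ := List.mem_map.1 hc
      assumption
  | dvd d f => simp [Atom.samples] at hc

theorem QF.samples_ne_zero {p : QF (n + 1)} {c : ℤ × LinForm n} (hc : c ∈ p.samples) :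
    c.1 ≠ 0 := by
  simp only [QF.samples, List.mem_append, List.mem_map, List.mem_flatMap] at hc
  rcases hc with ⟨r, -, rfl⟩ | ⟨b, -, h⟩
  exacts [one_ne_zero, Atom.samples_ne_zero h]

omit [IsOrderedAddMonoid G] [IsZGroup G] in
/-- Only the thresholds and the residue matter. -/
theorem holds_iff_of_same (p : QF (n + 1)) (x : Fin n → G) {y y' : G}
    (hres : ∃ z : G, y - y' = (p.period : ℤ) • z)
    (hthr : ∀ f, Atom.nonneg f ∈ p.atoms → f.last ≠ 0 →
      (0 ≤ f.last • y + f.init.eval x ↔ 0 ≤ f.last • y' + f.init.eval x)) :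
    p.Holds (Fin.snoc x y) ↔ p.Holds (Fin.snoc x y') := by
  refine QF.holds_congr fun b hb => ?_
  cases b with
  | nonneg f =>
    simp only [Atom.Holds, LinForm.eval_snoc]
    by_cases h : f.last = 0
    · simp [h]
    · simpa [add_comm] using hthr f hb h
  | dvd d f =>
    obtain ⟨z, hz⟩ := hres
    obtain ⟨m, hm⟩ : d + 1 ∣ p.period := List.dvd_prod (List.mem_map.2 ⟨_, hb, rfl⟩)
    have e : y = y' + ((d + 1 : ℕ) : ℤ) • ((m : ℤ) • z) := by
      rw [smul_smul, ← Nat.cast_mul, ← hm, ← hz]
      abel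
    simp only [Atom.Holds, LinForm.eval_snoc, e]
    constructor
    · rintro ⟨w, hw⟩
      exact ⟨w - (f.last * m) • z, by rw [smul_sub, ← hw]; module⟩
    · rintro ⟨w, hw⟩
      exact ⟨w + (f.last * m) • z, by rw [smul_add f.last, ← add_assoc, hw]; module⟩

theorem QF.period_pos (p : QF n) : 0 < p.period :=
  List.prod_pos fun k hk => by
    obtain ⟨b, -, rfl⟩ := List.mem_map.1 hk
    cases b <;> simp [Atom.modulus]

/-- A solution gives a solution among the sample points. -/
theorem exists_sample {p : QF (n + 1)} {x : Fin n → G} {y : G} (hy : p.Holds (Fin.snoc x y)) :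
    ∃ c ∈ p.samples, ∃ y' : G, c.1 • y' = c.2.eval x ∧ p.Holds (Fin.snoc x y') := by
  classical
  let A := p.atoms.filterMap fun b => match b with
    | .nonneg f => if f.last = 0 then none else some f
    | .dvd _ _ => none
  have hA : ∀ f, f ∈ A ↔ Atom.nonneg f ∈ p.atoms ∧ f.last ≠ 0 := fun f => by
    simp only [A, List.mem_filterMap]
    refine ⟨?_, fun h => ⟨_, h.1, by simp [h.2]⟩⟩
    rintro ⟨b, hb, e⟩
    cases b <;> grind
  have hex : ∀ f : LinForm (n + 1), ∃ β : G, f.last ≠ 0 → ∃ k : ℤ, |k| ≤ |f.last| ∧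
      f.last • β + f.init.eval x = k • 1 ∧ ∀ z z' : G, (β ≤ z ↔ β ≤ z') →
        (0 ≤ f.last • z + f.init.eval x ↔ 0 ≤ f.last • z' + f.init.eval x) := fun f => by
    by_cases h : f.last = 0
    · exact ⟨0, fun h' => absurd h h'⟩
    · obtain ⟨β, hβ⟩ := exists_threshold h (f.init.eval x)
      exact ⟨β, fun _ => hβ⟩
  choose β hβ using hex
  have hD : 0 < (p.period : ℤ) := by exact_mod_cast p.period_pos
  suffices h : (∃ r < p.period, ∃ z, y - (r : ℤ) • 1 = (p.period : ℤ) • z ∧
        ∀ f ∈ A, β f ≤ y ↔ β f ≤ (r : ℤ) • 1) ∨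
      ∃ g ∈ A, ∃ j : ℤ, |j| ≤ p.period ∧ ∃ z, y - (β g + j • 1) = (p.period : ℤ) • z ∧
        ∀ f ∈ A, β f ≤ y ↔ β f ≤ β g + j • 1 by
    rcases h with ⟨r, hr, z, hz, hthr⟩ | ⟨g, hg, j, hj, z, hz, hthr⟩
    · refine ⟨(1, LinForm.const r), List.mem_append_left _ (List.mem_map.2
        ⟨r, List.mem_range.2 hr, rfl⟩), (r : ℤ) • 1, by simp, ?_⟩
      refine (holds_iff_of_same p x ⟨z, hz⟩ fun f hf h => ?_).1 hy
      obtain ⟨k, -, -, hk⟩ := hβ f h
      exact hk _ _ (hthr f ((hA f).2 ⟨hf, h⟩))
    · obtain ⟨hgp, hg0⟩ := (hA g).1 hg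
      obtain ⟨k, hk, e, -⟩ := hβ g hg0
      have hJ : |k + g.last * j| ≤ ((g.last.natAbs * (p.period + 1) : ℕ) : ℤ) := by
        push_cast
        refine (abs_add_le _ _).trans ?_
        rw [abs_mul, mul_add, mul_one, add_comm]
        exact add_le_add (mul_le_mul_of_nonneg_left hj (abs_nonneg _)) hk
      refine ⟨(g.last, LinForm.const (k + g.last * j) - g.init), List.mem_append_right _
        (List.mem_flatMap.2 ⟨_, hgp, ?_⟩), β g + j • 1, ?_, ?_⟩
      · simp only [Atom.samples, hg0, if_false, List.mem_map]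
        generalize g.last.natAbs * (p.period + 1) = J at hJ ⊢
        rw [abs_le] at hJ
        refine ⟨(k + g.last * j + (J : ℤ)).toNat, ?_, ?_⟩
        · rw [List.mem_range]
          omega
        rw [Int.toNat_of_nonneg (by omega), add_sub_cancel_right]
      · simp only [LinForm.eval_sub, LinForm.eval_const]
        rw [add_smul, ← e]
        module
      · refine (holds_iff_of_same p x ⟨z, hz⟩ fun f hf h => ?_).1 hy
        obtain ⟨k, -, -, hk⟩ := hβ f h
        exact hk _ _ (hthr f ((hA f).2 ⟨hf, h⟩))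
  by_cases hne : A = []
  · obtain ⟨z, r, hr, e⟩ := IsZGroup.exists_div p.period p.period_pos y
    exact .inl ⟨r, hr, z, sub_eq_of_eq_add e, by simp [hne]⟩
  · right
    by_cases hlow : ∃ f ∈ A, β f ≤ y
    · obtain ⟨g, hg, hmax⟩ := Finset.exists_max_image (A.toFinset.filter fun f => β f ≤ y) β (by
        obtain ⟨f, hf, hf'⟩ := hlow
        exact ⟨f, Finset.mem_filter.2 ⟨List.mem_toFinset.2 hf, hf'⟩⟩)
      obtain ⟨hgA, hgy⟩ := Finset.mem_filter.1 hg
      obtain ⟨z, r, hr, e⟩ := IsZGroup.exists_div p.period p.period_pos (y - β g)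
      refine ⟨g, List.mem_toFinset.1 hgA, r, by rw [Nat.abs_cast]; omega, z,
        by rw [← sub_sub, e]; abel, fun f hf => ⟨fun h => ?_, fun h => ?_⟩⟩
      · exact (hmax f (Finset.mem_filter.2 ⟨List.mem_toFinset.2 hf, h⟩)).trans
          (le_add_of_nonneg_right ((intCast_nonneg_iff _).2 (Int.natCast_nonneg r)))
      · have hz : -z ≤ 0 := nonpos_of_smul_lt hD (show (r : ℤ) < p.period by omega) <| by
          have h0 : 0 ≤ (p.period : ℤ) • z + (r : ℤ) • (1 : G) := e ▸ sub_nonneg.2 hgy
          calc (p.period : ℤ) • -z = (r : ℤ) • (1 : G) - ((p.period : ℤ) • z + (r : ℤ) • 1) := by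
                module
            _ ≤ _ := sub_le_self _ h0
        refine h.trans ?_
        rw [← le_sub_iff_add_le', e]
        exact le_add_of_nonneg_left (zsmul_nonneg (neg_nonpos.1 hz) hD.le)
    · simp only [not_exists, not_and, not_le] at hlow
      obtain ⟨g, hg, hmin⟩ := Finset.exists_min_image A.toFinset β
        (List.toFinset_nonempty_iff _ |>.2 hne)
      obtain ⟨z, r, hr, e⟩ := IsZGroup.exists_div p.period p.period_pos (y - β g)
      refine ⟨g, List.mem_toFinset.1 hg, (r : ℤ) - p.period, by rw [abs_le]; omega, z + 1, ?_,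
        fun f hf => iff_of_false (hlow f hf).not_ge fun h => ?_⟩
      · rw [← sub_sub, e]
        module
      · have h1 := le_trans (hmin f (List.mem_toFinset.2 hf)) h
        rw [le_add_iff_nonneg_right, intCast_nonneg_iff] at h1
        omega

/-- **Quantifier elimination.** A boolean combination has a solution in the last variable if and
only if the elimination holds. -/
theorem QF.holds_elim (p : QF (n + 1)) (x : Fin n → G) :
    p.elim.Holds x ↔ ∃ y, p.Holds (Fin.snoc x y) := by
  simp only [QF.elim, QF.holds_any, List.mem_map, exists_exists_and_eq_and, QF.holds_and]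
  have hm : ∀ a : ℤ, a ≠ 0 → a.natAbs - 1 + 1 = a.natAbs := fun a ha => by omega
  constructor
  · rintro ⟨c, hc, ⟨w, hw⟩, hp⟩
    rw [hm _ (QF.samples_ne_zero hc)] at hw
    refine ⟨c.1.sign • w, (QF.holds_subst (QF.samples_ne_zero hc) ?_ p).1 hp⟩
    rw [smul_comm, ← smul_natAbs_eq, hw]
  · rintro ⟨y, hy⟩
    obtain ⟨c, hc, y', hy', hp⟩ := exists_sample hy
    have h0 := QF.samples_ne_zero hc
    refine ⟨c, hc, ⟨c.1.sign • y', ?_⟩, (QF.holds_subst h0 hy' p).2 hp⟩
    rw [hm _ h0, ← hy', smul_natAbs_eq, smul_comm c.1 c.1.sign y', smul_smul, smul_smul,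
      show c.1.sign * c.1.sign = 1 by
        rcases lt_or_gt_of_ne h0 with h | h <;>
          simp [Int.sign_eq_neg_one_of_neg, Int.sign_eq_one_of_pos, h], one_mul]

/-- Without variables the truth does not depend on the group. -/
theorem QF.holds_closed (G' : Type*) [AddCommGroup G'] [LinearOrder G'] [IsOrderedAddMonoid G']
    [One G'] [IsZGroup G'] (x : Fin 0 → G) (x' : Fin 0 → G') :
    ∀ p : QF 0, p.Holds x ↔ p.Holds x'
  | .falsum => Iff.rfl
  | .atom (.nonneg f) => by simp [QF.Holds, Atom.Holds, LinForm.eval, intCast_nonneg_iff]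
  | .atom (.dvd d f) => by
    simp only [QF.Holds, Atom.Holds, LinForm.eval, Finset.univ_eq_empty, Finset.sum_empty, zero_add,
      intCast_dvd_iff]
  | .imp p q => imp_congr (QF.holds_closed G' x x' p) (QF.holds_closed G' x x' q)

end Group

end FA.Presburger
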