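import Mathlib.ModelTheory.Arithmetic.Presburger.Basic
import Mathlib.GroupTheory.MonoidLocalization.GrothendieckGroup
import Fermat.Agent.Presburger.Elim

/-!
# The axioms of Presburger arithmetic

The models are the positive cones of the ordered groups with a least positive element and division
with remainder by the positive integers.
-/

set_option autoImplicit false

namespace FA.Presburger

open FirstOrder FirstOrder.Language

/-- A term repeated `k` times. -/
def repTerm {α : Type*} (t : presburger.Term α) : ℕ → presburger.Term α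
  | 0 => 0
  | k + 1 => t + repTerm t k

/-- An element repeated `k` times. -/
def repElem {M : Type*} [Zero M] [Add M] (x : M) : ℕ → M
  | 0 => 0
  | k + 1 => x + repElem x k

section Syntax

variable {n : ℕ}

/-- A variable as a term. -/
def varTerm (i : Fin n) : presburger.Term (Empty ⊕ Fin n) := .var (.inr i)

/-- The axioms other than division with remainder. -/
def basicAxioms : List presburger.Sentence :=
  [(BoundedFormula.equal ((varTerm (n := 3) 0 + varTerm 1) + varTerm 2)
      (varTerm 0 + (varTerm 1 + varTerm 2))).all.all.all,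
    (BoundedFormula.equal (varTerm (n := 2) 0 + varTerm 1) (varTerm 1 + varTerm 0)).all.all,
    (BoundedFormula.equal (varTerm (n := 1) 0 + 0) (varTerm 0)).all,
    ((BoundedFormula.equal (varTerm (n := 3) 0 + varTerm 2) (varTerm 1 + varTerm 2)).imp
      (.equal (varTerm 0) (varTerm 1))).all.all.all,
    (BoundedFormula.equal (varTerm (n := 1) 0 + 1) 0).not.all,
    ((BoundedFormula.equal (varTerm (n := 1) 0) 0).not.imp
      (BoundedFormula.equal (varTerm (n := 2) 0) (varTerm 1 + 1)).ex).all,
    ((BoundedFormula.equal (varTerm (n := 3) 0 + varTerm 2) (varTerm 1)).not.imp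
      (.equal (varTerm 1 + varTerm 2) (varTerm 0))).ex.all.all]

/-- Division with remainder by `m + 1`. -/
def divAxiom (m : ℕ) : presburger.Sentence :=
  (BoundedFormula.equal (varTerm (n := 4) 0) (repTerm (varTerm 1) (m + 1) + varTerm 2) ⊓
    .equal (varTerm 2 + (varTerm 3 + 1)) (repTerm 1 (m + 1))).ex.ex.ex.all

/-- The axioms of Presburger arithmetic. -/
def presburgerAxioms : presburger.Theory :=
  {φ | φ ∈ basicAxioms} ∪ Set.range divAxiom

end Syntax

/-- The meaning of the axioms. -/
structure IsPresburgerModel (M : Type*) [Zero M] [One M] [Add M] : Prop where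
  assoc : ∀ a b c : M, a + b + c = a + (b + c)
  comm : ∀ a b : M, a + b = b + a
  add_zero' : ∀ a : M, a + 0 = a
  cancel : ∀ a b c : M, a + c = b + c → a = b
  succ_ne : ∀ a : M, a + 1 ≠ 0
  pred : ∀ a : M, a ≠ 0 → ∃ b, a = b + 1
  total : ∀ a b : M, ∃ c, a + c = b ∨ b + c = a
  div : ∀ (m : ℕ) (x : M), ∃ y z w,
    x = repElem y (m + 1) + z ∧ z + (w + 1) = repElem 1 (m + 1)

variable {M : Type*} [Zero M] [One M] [Add M]

theorem realize_repTerm {α : Type*} (t : presburger.Term α) (v : α → M) :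
    ∀ k : ℕ, (repTerm t k).realize v = repElem (t.realize v) k
  | 0 => rfl
  | k + 1 => by rw [repTerm, presburger.realize_add, realize_repTerm t v k]; rfl

theorem model_presburgerAxioms_iff : M ⊨ presburgerAxioms ↔ IsPresburgerModel M := by
  simp only [presburgerAxioms, Theory.model_union_iff]
  simp [Theory.model_iff, basicAxioms, divAxiom, Sentence.Realize, Formula.Realize, varTerm,
    BoundedFormula.Realize, realize_repTerm, Fin.snoc]
  refine ⟨fun ⟨⟨h₁, h₂, h₃, h₄, h₅, h₆, h₇⟩, h₈⟩ => ⟨h₁, h₂, h₃, h₄, h₅, h₆, fun a b => ?_,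
    fun m x => ?_⟩, fun h => ⟨⟨h.assoc, h.comm, h.add_zero', h.cancel, h.succ_ne,
      h.pred, fun a b => ?_⟩, fun m x => ?_⟩⟩
  · obtain ⟨c, hc⟩ := h₇ a b
    exact ⟨c, or_iff_not_imp_left.2 hc⟩
  · obtain ⟨y, z, e, w, e'⟩ := h₈ m x
    exact ⟨y, z, w, e, e'⟩
  · obtain ⟨c, hc⟩ := h.total a b
    exact ⟨c, or_iff_not_imp_left.1 hc⟩
  · obtain ⟨y, z, w, e, e'⟩ := h.div m x
    exact ⟨y, z, e, w, e'⟩

theorem isPresburgerModel_nat : IsPresburgerModel ℕ where
  assoc := Nat.add_assoc
  comm := Nat.add_comm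
  add_zero' := Nat.add_zero
  cancel _ _ _ := Nat.add_right_cancel
  succ_ne := Nat.succ_ne_zero
  pred a h := ⟨a - 1, by omega⟩
  total a b := ⟨max a b - min a b, by omega⟩
  div m x := by
    have e : ∀ y k : ℕ, repElem y k = k * y := fun y k => by
      induction k with
      | zero => simp [repElem]
      | succ k ih => simp [repElem, ih, add_mul, add_comm]
    have : x % (m + 1) < m + 1 := Nat.mod_lt x (Nat.succ_pos m)
    refine ⟨x / (m + 1), x % (m + 1), m - x % (m + 1), ?_, ?_⟩
    · rw [e, Nat.div_add_mod]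
    · rw [e, mul_one]
      omega

/-- An additive map onto the nonnegative elements. -/
structure IsPositiveCone {G : Type*} [AddCommGroup G] [LE G] [One G] (ι : M → G) : Prop where
  injective : Function.Injective ι
  map_zero : ι 0 = 0
  map_one : ι 1 = 1
  map_add : ∀ a b, ι (a + b) = ι a + ι b
  nonneg_iff : ∀ g, 0 ≤ g ↔ ∃ a, ι a = g

theorem exists_zGroup.{u} {M : Type u} [Zero M] [One M] [Add M] (h : IsPresburgerModel M) :
    ∃ (G : Type u) (_ : AddCommGroup G) (_ : LinearOrder G) (_ : One G),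
      IsOrderedAddMonoid G ∧ IsZGroup G ∧ ∃ ι : M → G, IsPositiveCone ι := by
  classical
  let hM : AddCommMonoid M :=
    { add_assoc := h.assoc
      add_comm := h.comm
      add_zero := h.add_zero'
      zero_add := fun a => (h.comm 0 a).trans (h.add_zero' a)
      nsmul := nsmulRec }
  have : IsCancelAdd M :=
    { add_left_cancel := fun a b c e => h.cancel b c a (by simpa only [h.comm _ a] using e)
      add_right_cancel := fun a b c e => h.cancel b c a e }
  let G := Algebra.GrothendieckAddGroup M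
  let ι : M →+ G := Algebra.GrothendieckAddGroup.of
  have hι : Function.Injective ι := Algebra.GrothendieckAddGroup.of_injective
  have hsurj : ∀ g : G, ∃ a b, g = ι a - ι b := fun g => by
    obtain ⟨⟨a, b⟩, e⟩ := (AddLocalization.addMonoidOf (⊤ : AddSubmonoid M)).surj g
    exact ⟨a, b, eq_sub_of_add_eq e⟩
  have hzero : ∀ a b : M, a + b = 0 → a = 0 := fun a b e => by
    by_contra ha
    obtain ⟨c, rfl⟩ := h.pred a ha
    exact h.succ_ne (c + b) (by rw [← e, add_right_comm])
  have hrep : ∀ (x : M) (k : ℕ), repElem x k = k • x := fun x k => by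
    induction k with
    | zero => exact (zero_nsmul x).symm
    | succ k ih => rw [repElem, ih, succ_nsmul']
  have hsmall : ∀ (k : ℕ) (z w : M), z + (w + 1) = k • (1 : M) → ∃ r < k, z = r • (1 : M) := by
    intro k
    induction k with
    | zero =>
      intro z w e
      exact (h.succ_ne (z + w) (by rw [add_assoc, e, zero_nsmul])).elim
    | succ k ih =>
      intro z w e
      rw [succ_nsmul, ← add_assoc] at e
      by_cases hw : w = 0
      · exact ⟨k, k.lt_succ_self, by simpa [hw] using h.cancel _ _ _ e⟩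
      · obtain ⟨w', rfl⟩ := h.pred w hw
        obtain ⟨r, hr, rfl⟩ := ih z w' (h.cancel _ _ _ e)
        exact ⟨r, by omega, rfl⟩
  let hle : LE G := ⟨fun a b => ∃ m, b = a + ι m⟩
  let hord : LinearOrder G :=
    { hle with
      le_refl := fun a => ⟨0, by simp⟩
      le_trans := fun a b c ⟨m, hm⟩ ⟨k, hk⟩ => ⟨m + k, by rw [hk, hm, map_add, add_assoc]⟩
      le_antisymm := fun a b ⟨m, hm⟩ ⟨k, hk⟩ => by
        have : ι (m + k) = ι 0 := by
          rw [map_add, map_zero]
          rw [hm, add_assoc] at hk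
          exact add_eq_left.1 hk.symm
        rw [hm, hzero m k (hι this), map_zero, add_zero]
      le_total := fun a b => by
        obtain ⟨p, q, e⟩ := hsurj (b - a)
        obtain ⟨c, hc | hc⟩ := h.total q p
        · exact .inl ⟨c, by rw [← hc, map_add, add_sub_cancel_left] at e; rw [← e]; abel⟩
        · refine .inr ⟨c, ?_⟩
          rw [← hc, map_add, sub_add_eq_sub_sub, sub_self, zero_sub] at e
          rw [← neg_neg (ι c), ← e]
          abel
      toDecidableLE := Classical.decRel _ }
  let hone : One G := ⟨ι 1⟩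
  have hnn : ∀ g : G, 0 ≤ g ↔ ∃ a, ι a = g := fun g =>
    ⟨fun ⟨a, e⟩ => ⟨a, by rw [e, zero_add]⟩, fun ⟨a, e⟩ => ⟨a, by rw [e, zero_add]⟩⟩
  refine ⟨G, inferInstance, hord, hone, ⟨fun a b ⟨m, hm⟩ c => ⟨m, ?_⟩, fun a b ⟨m, hm⟩ c =>
    ⟨m, ?_⟩⟩, ⟨?_, fun g hg => ?_, fun k hk g => ?_⟩, ι, hι, map_zero ι, rfl, map_add ι, hnn⟩
  · rw [hm]
    abel
  · rw [hm]
    abel
  · refine lt_of_le_of_ne ((hnn _).2 ⟨1, rfl⟩) fun e => h.succ_ne 0 ?_
    rw [zero_add]
    exact hι (e.symm.trans (map_zero ι).symm)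
  · obtain ⟨a, rfl⟩ := (hnn g).1 hg.le
    obtain ⟨b, rfl⟩ := h.pred a fun e => hg.ne' (by rw [e, map_zero])
    exact ⟨b, by rw [map_add, add_comm]; rfl⟩
  · have hdiv : ∀ x : M, ∃ y : G, ∃ r < k, ι x = (k : ℤ) • y + (r : ℤ) • ι 1 := fun x => by
      obtain ⟨y, z, w, e, e'⟩ := h.div (k - 1) x
      rw [Nat.sub_add_cancel hk, hrep] at e e'
      obtain ⟨r, hr, rfl⟩ := hsmall k z w e'
      exact ⟨ι y, r, hr, by rw [e, map_add, map_nsmul, map_nsmul, natCast_zsmul, natCast_zsmul]⟩
    obtain ⟨a, b, rfl⟩ := hsurj g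
    obtain ⟨y, r, hr, ea⟩ := hdiv a
    obtain ⟨y', r', hr', eb⟩ := hdiv b
    change ∃ y'' : G, ∃ s : ℕ, s < k ∧ ι a - ι b = (k : ℤ) • y'' + (s : ℤ) • ι 1
    rw [ea, eb]
    rcases le_or_gt r' r with hle' | hlt
    · refine ⟨y - y', r - r', by omega, ?_⟩
      rw [Nat.cast_sub hle']
      module
    · refine ⟨y - y' - ι 1, k + r - r', by omega, ?_⟩
      rw [Nat.cast_sub (by omega), Nat.cast_add]
      module

end FA.Presburger
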