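import Fermat.Agent.EffectiveCompleteness.Syntax
import Fermat.Agent.Presburger.Axioms

/-!
# The codes of the axioms of Presburger arithmetic

The word of division with remainder by `m + 1` is primitive recursive in `m`.
-/

set_option autoImplicit false

namespace FA.Presburger

open FirstOrder FirstOrder.Language
open EffectiveCompleteness (termWord formWord varSym funSym termSym natSym)

instance instEncodablePresburgerFunctions : Encodable (Σ i, presburger.Functions i) :=
  Encodable.ofLeftInverse
    (fun p : Σ i, presburger.Functions i => ((match p with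
      | ⟨_, .zero⟩ => 0
      | ⟨_, .one⟩ => 1
      | ⟨_, .add⟩ => 2) : Fin 3))
    ![⟨0, .zero⟩, ⟨0, .one⟩, ⟨2, .add⟩]
    fun p => by obtain ⟨i, _ | _⟩ := p <;> rfl

instance instEncodablePresburgerRelations : Encodable (Σ i, presburger.Relations i) :=
  have : IsEmpty (Σ i, presburger.Relations i) := ⟨fun x => Empty.elim x.2⟩
  IsEmpty.toEncodable

instance instFinitePresburgerFunctions : Finite (Σ i, presburger.Functions i) :=
  Finite.of_surjective
    (![⟨0, .zero⟩, ⟨0, .one⟩, ⟨2, .add⟩] : Fin 3 → Σ i, presburger.Functions i) fun p => by
    obtain ⟨i, _ | _⟩ := p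
    exacts [⟨0, rfl⟩, ⟨1, rfl⟩, ⟨2, rfl⟩]

instance instFinitePresburgerRelations : Finite (Σ i, presburger.Relations i) :=
  have : IsEmpty (Σ i, presburger.Relations i) := ⟨fun x => Empty.elim x.2⟩
  inferInstance

/-- The symbol of `+`. -/
def plusSym : ℕ := funSym (Encodable.encode (⟨2, .add⟩ : Σ i, presburger.Functions i))

/-- The symbol of `0`. -/
def nilSym : ℕ := funSym (Encodable.encode (⟨0, .zero⟩ : Σ i, presburger.Functions i))

/-- The symbol of `1`. -/
def unitSym : ℕ := funSym (Encodable.encode (⟨0, .one⟩ : Σ i, presburger.Functions i))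

variable {n : ℕ}

theorem termWord_plus (t u : presburger.Term (Empty ⊕ Fin n)) :
    termWord (t + u) = plusSym :: (termWord t ++ termWord u) := by
  refine (EffectiveCompleteness.termWord_func (L := presburger) presburgerFunc.add ![t, u]).trans
    ?_
  simp [plusSym, List.ofFn_succ]

theorem termWord_nil : termWord (0 : presburger.Term (Empty ⊕ Fin n)) = [nilSym] := by
  refine (EffectiveCompleteness.termWord_func (L := presburger) presburgerFunc.zero _).trans ?_
  simp [nilSym]

theorem termWord_unit : termWord (1 : presburger.Term (Empty ⊕ Fin n)) = [unitSym] := by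
  refine (EffectiveCompleteness.termWord_func (L := presburger) presburgerFunc.one _).trans ?_
  simp [unitSym]

/-- The word of a repeated term. -/
def repWord (w : List ℕ) : ℕ → List ℕ
  | 0 => [nilSym]
  | k + 1 => plusSym :: (w ++ repWord w k)

theorem termWord_repTerm (t : presburger.Term (Empty ⊕ Fin n)) :
    ∀ k, termWord (repTerm t k) = repWord (termWord t) k
  | 0 => termWord_nil
  | k + 1 => by
    rw [repTerm, termWord_plus, termWord_repTerm t k]
    rfl

theorem primrec_repWord (w : List ℕ) : Primrec (repWord w) :=
  (Primrec.nat_rec₁ [nilSym] (f := fun _ u => plusSym :: (w ++ u))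
    (Primrec.list_cons.comp (Primrec.const plusSym)
      (Primrec.list_append.comp (Primrec.const w) Primrec.snd)).to₂).of_eq fun k => by
    induction k with
    | zero => rfl
    | succ k ih => simp only [repWord, ← ih]

theorem formWord_notFormula (φ : presburger.BoundedFormula Empty n) :
    formWord φ.not = natSym 0 :: (formWord φ ++ [natSym (n + 2)]) :=
  (EffectiveCompleteness.formWord_imp φ ⊥).trans
    (congrArg (fun w => natSym 0 :: (formWord φ ++ w)) EffectiveCompleteness.formWord_falsum)

theorem formWord_exFormula (φ : presburger.BoundedFormula Empty (n + 1)) :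
    formWord φ.ex = natSym 0 :: (natSym 1 :: natSym 0 :: (formWord φ ++ [natSym (n + 3)]) ++
      [natSym (n + 2)]) := by
  rw [BoundedFormula.ex, formWord_notFormula, EffectiveCompleteness.formWord_all,
    formWord_notFormula]

/-- The word of division with remainder by `m + 1`. -/
def divWord (m : ℕ) : List ℕ :=
  let A := [termSym 4 [varSym 0],
    termSym 4 (plusSym :: (repWord [varSym 1] (m + 1) ++ [varSym 2]))]
  let B := [termSym 4 ([plusSym, varSym 2, plusSym, varSym 3, unitSym]),
    termSym 4 (repWord [unitSym] (m + 1))]
  [natSym 1, natSym 0, natSym 1, natSym 0, natSym 0, natSym 1, natSym 0, natSym 0, natSym 1,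
    natSym 0, natSym 0, natSym 0] ++ A ++ natSym 0 :: B ++
    [natSym 6, natSym 6, natSym 6, natSym 5, natSym 5, natSym 4, natSym 4, natSym 3]

theorem formWord_divAxiom (m : ℕ) : formWord (divAxiom m) = divWord m := by
  rw [divAxiom, EffectiveCompleteness.formWord_all, formWord_exFormula, formWord_exFormula,
    formWord_exFormula]
  rw [show ∀ a b : presburger.BoundedFormula Empty 4, a ⊓ b = (a.imp b.not).not from
    fun a b => rfl, formWord_notFormula, EffectiveCompleteness.formWord_imp, formWord_notFormula,
    EffectiveCompleteness.formWord_equal, EffectiveCompleteness.formWord_equal]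
  simp [divWord, varTerm, termWord_plus, termWord_repTerm, termWord_unit,
    EffectiveCompleteness.termWord_var]

theorem primrec_divWord : Primrec divWord := by
  have hterm : ∀ {f : ℕ → List ℕ}, Primrec f → Primrec fun m => termSym 4 (f m) := fun hf =>
    (Primrec.nat_mul.comp (Primrec.const 2) (Primrec₂.natPair.comp (Primrec.const 4)
      (Primrec.encode.comp hf))).of_eq fun _ => rfl
  have hrep : ∀ w, Primrec fun m => repWord w (m + 1) := fun w =>
    (primrec_repWord w).comp Primrec.succ
  exact Primrec.list_append.comp
    (Primrec.list_append.comp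
      (Primrec.list_append.comp (Primrec.const _) (Primrec.list_cons.comp (Primrec.const _)
        (Primrec.list_cons.comp (hterm (Primrec.list_cons.comp (Primrec.const plusSym)
          (Primrec.list_append.comp (hrep _) (Primrec.const [varSym 2])))) (Primrec.const []))))
      (Primrec.list_cons.comp (Primrec.const (natSym 0)) (Primrec.list_cons.comp (Primrec.const _)
        (Primrec.list_cons.comp (hterm (hrep _)) (Primrec.const [])))))
    (Primrec.const _)

end FA.Presburger
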