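import Mathlib.ModelTheory.Satisfiability
import Fermat.Agent.Presburger.Axioms

/-!
# Formulas of Presburger arithmetic without quantifiers

Every formula becomes a boolean combination of inequalities and congruences, so the axioms are
complete.
-/

set_option autoImplicit false

namespace FA.Presburger

open FirstOrder FirstOrder.Language

/-- The linear form of a term. -/
def termForm {n : ℕ} : presburger.Term (Empty ⊕ Fin n) → LinForm n
  | .var (.inl e) => e.elim
  | .var (.inr i) => LinForm.coord i
  | .func presburgerFunc.zero _ => LinForm.const 0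
  | .func presburgerFunc.one _ => LinForm.const 1
  | .func presburgerFunc.add ts => termForm (ts 0) + termForm (ts 1)

/-- A formula without quantifiers for a formula. -/
def qe : ∀ {n : ℕ}, presburger.BoundedFormula Empty n → QF n
  | _, .falsum => .falsum
  | _, .equal t u => (QF.atom (.nonneg (termForm t - termForm u))).and
      (.atom (.nonneg (termForm u - termForm t)))
  | _, .rel R _ => R.elim
  | _, .imp φ ψ => (qe φ).imp (qe ψ)
  | n, .all φ => (((QF.atom (.nonneg (LinForm.coord (Fin.last n)))).and (qe φ).not).elim).not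

variable {M : Type*} [Zero M] [One M] [Add M] {G : Type*} [AddCommGroup G] [LinearOrder G]
  [IsOrderedAddMonoid G] [One G] [IsZGroup G] {ι : M → G}

omit [IsOrderedAddMonoid G] [IsZGroup G] in
theorem eval_termForm (hι : IsPositiveCone ι) {n : ℕ} (v : Empty → M) (xs : Fin n → M) :
    ∀ t : presburger.Term (Empty ⊕ Fin n),
      ι (t.realize (Sum.elim v xs)) = (termForm t).eval (ι ∘ xs)
  | .var (.inl e) => e.elim
  | .var (.inr i) => by simp [termForm]
  | .func presburgerFunc.zero _ => by
    rw [termForm, LinForm.eval_const, zero_smul]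
    exact hι.map_zero
  | .func presburgerFunc.one _ => by
    rw [termForm, LinForm.eval_const, one_smul]
    exact hι.map_one
  | .func presburgerFunc.add ts => by
    rw [termForm, LinForm.eval_add, ← eval_termForm hι v xs (ts 0), ← eval_termForm hι v xs (ts 1)]
    exact hι.map_add _ _

/-- **Quantifier elimination.** -/
theorem holds_qe (hι : IsPositiveCone ι) (v : Empty → M) :
    ∀ {n : ℕ} (φ : presburger.BoundedFormula Empty n) (xs : Fin n → M),
      φ.Realize v xs ↔ (qe φ).Holds (ι ∘ xs)
  | _, .falsum, _ => Iff.rfl
  | _, .equal t u, xs => by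
    simp only [BoundedFormula.Realize, qe, QF.holds_and, QF.Holds, Atom.Holds, LinForm.eval_sub,
      ← eval_termForm hι v xs, sub_nonneg]
    rw [← hι.injective.eq_iff, le_antisymm_iff, and_comm]
  | _, .rel R _, _ => R.elim
  | _, .imp φ ψ, xs => imp_congr (holds_qe hι v φ xs) (holds_qe hι v ψ xs)
  | n, .all φ, xs => by
    simp only [BoundedFormula.Realize, qe, QF.holds_not, QF.holds_elim, QF.holds_and, QF.Holds,
      Atom.Holds, LinForm.eval_coord, Fin.snoc_last, not_exists, not_and, not_not]
    refine ⟨fun h g hg => ?_, fun h a => ?_⟩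
    · obtain ⟨a, rfl⟩ := (hι.nonneg_iff g).1 hg
      have := (holds_qe hι v φ _).1 (h a)
      rwa [Fin.comp_snoc] at this
    · have := h (ι a) ((hι.nonneg_iff _).2 ⟨a, rfl⟩)
      rw [← Fin.comp_snoc] at this
      exact (holds_qe hι v φ _).2 this

instance instIsZGroupInt : IsZGroup ℤ where
  one_pos := Int.one_pos
  one_le _ h := h
  exists_div k hk x := ⟨x / k, (x % k).toNat, by
    have := Int.emod_nonneg x (b := (k : ℤ)) (by omega)
    have := Int.emod_lt_of_pos x (b := (k : ℤ)) (by omega)
    omega, by
    rw [Int.toNat_of_nonneg (Int.emod_nonneg x (by omega)), smul_eq_mul, smul_eq_mul, mul_one,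
      Int.mul_ediv_add_emod]⟩

theorem isPositiveCone_nat : IsPositiveCone (fun a : ℕ => (a : ℤ)) where
  injective := Nat.cast_injective
  map_zero := rfl
  map_one := rfl
  map_add := Nat.cast_add
  nonneg_iff g := ⟨fun h => ⟨g.toNat, Int.toNat_of_nonneg h⟩,
    fun ⟨a, e⟩ => e ▸ Int.natCast_nonneg a⟩

/-- An arbitrary structure is given by its operations. -/
theorem structure_eq {M : Type*} (S : presburger.Structure M) :
    letI : Zero M := ⟨S.funMap presburgerFunc.zero ![]⟩
    letI : One M := ⟨S.funMap presburgerFunc.one ![]⟩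
    letI : Add M := ⟨fun a b => S.funMap presburgerFunc.add ![a, b]⟩
    S = presburger.instStructure (M := M) := by
  refine Language.Structure.ext ?_ ?_
  · funext k f v
    cases f
    · exact congrArg _ (Subsingleton.elim _ _)
    · exact congrArg _ (Subsingleton.elim _ _)
    · exact congrArg _ (funext (Fin.forall_fin_two.2 ⟨rfl, rfl⟩))
  · funext k R
    exact R.elim

/-- The models given by operations satisfy the same sentences as `ℕ`. -/
theorem realize_iff_nat_of_ops {M : Type*} [Zero M] [One M] [Add M]
    (hM : M ⊨ presburgerAxioms) (φ : presburger.Sentence) : M ⊨ φ ↔ ℕ ⊨ φ := by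
  obtain ⟨G, _, _, _, _, _, ι, hι⟩ := exists_zGroup (model_presburgerAxioms_iff.1 hM)
  rw [Sentence.Realize, Formula.Realize, holds_qe hι, Sentence.Realize, Formula.Realize,
    holds_qe isPositiveCone_nat]
  exact QF.holds_closed ℤ _ _ _

/-- The models satisfy the same sentences as `ℕ`. -/
theorem realize_iff_nat {M : Type*} [S : presburger.Structure M]
    (hM : M ⊨ presburgerAxioms) (φ : presburger.Sentence) : M ⊨ φ ↔ ℕ ⊨ φ := by
  let _ : Zero M := ⟨S.funMap presburgerFunc.zero ![]⟩
  let _ : One M := ⟨S.funMap presburgerFunc.one ![]⟩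
  let _ : Add M := ⟨fun a b => S.funMap presburgerFunc.add ![a, b]⟩
  have key : ∀ S' : presburger.Structure M, S' = presburger.instStructure (M := M) →
      @Theory.Model _ M S' presburgerAxioms → (@Sentence.Realize _ M S' φ ↔ ℕ ⊨ φ) := by
    rintro _ rfl h
    exact realize_iff_nat_of_ops h φ
  exact key S (structure_eq S) hM

theorem nat_models_presburgerAxioms : ℕ ⊨ presburgerAxioms :=
  model_presburgerAxioms_iff.2 isPresburgerModel_nat

theorem models_iff_nat (φ : presburger.Sentence) : presburgerAxioms ⊨ᵇ φ ↔ ℕ ⊨ φ := by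
  rw [Theory.models_sentence_iff]
  have := nat_models_presburgerAxioms
  exact ⟨fun h => h (Theory.ModelType.of presburgerAxioms ℕ),
    fun h M => (realize_iff_nat M.is_model φ).2 h⟩

theorem isComplete_presburgerAxioms : presburgerAxioms.IsComplete := by
  refine ⟨?_, fun φ => ?_⟩
  · have := nat_models_presburgerAxioms
    exact ⟨Theory.ModelType.of presburgerAxioms ℕ⟩
  · simp only [models_iff_nat]
    exact (em _).imp_right fun h => (Sentence.realize_not ℕ).2 h

end FA.Presburger
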